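import Mathlib.RingTheory.PowerSeries.WellKnown
import Mathlib.RingTheory.PowerSeries.Derivative
import Mathlib.FieldTheory.IsAlgClosed.Basic
import Mathlib.Algebra.Polynomial.Reverse

/-!
# Class numbers from the point counts: the algebra of zeta functions of curves
-/

set_option autoImplicit false
set_option linter.unusedSectionVars false

noncomputable section

open PowerSeries Finset

namespace Fermat.Agent.CZeta

variable {K : Type*} [Field K] [CharZero K]

/-- `F` has logarithmic derivative `-∑ c_s X^s` -/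
def LD (F : PowerSeries K) (c : ℕ → K) : Prop :=
  ∀ d : ℕ, (d : K) * coeff d F = - ∑ s ∈ range d, c (s + 1) * coeff (d - (s + 1)) F

/-- the series `∑_{s ≥ 1} c_s X^s` -/
def SS (c : ℕ → K) : PowerSeries K := mk fun n => if n = 0 then 0 else c n

theorem coeff_SS_mul (c : ℕ → K) (F : PowerSeries K) (d : ℕ) :
    coeff d (SS c * F) = ∑ s ∈ range d, c (s + 1) * coeff (d - (s + 1)) F := by
  rw [coeff_mul, Finset.Nat.sum_antidiagonal_eq_sum_range_succ
    (fun i j => coeff i (SS c) * coeff j F), Finset.sum_range_succ']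
  simp only [SS, coeff_mk]
  simp

/-- `X F'` -/
def XD (F : PowerSeries K) : PowerSeries K := X * derivative K F

theorem coeff_XD (F : PowerSeries K) (d : ℕ) : coeff d (XD F) = (d : K) * coeff d F := by
  rw [XD]
  rcases d with _ | d
  · rw [coeff_zero_eq_constantCoeff, map_mul]
    simp
  · rw [coeff_succ_X_mul, coeff_derivative]
    push_cast
    ring

theorem XD_mul (F G : PowerSeries K) : XD (F * G) = XD F * G + F * XD G := by
  rw [XD, XD, XD, Derivation.leibniz, smul_eq_mul, smul_eq_mul]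
  ring

theorem ld_iff (F : PowerSeries K) (c : ℕ → K) : LD F c ↔ XD F = - (SS c * F) := by
  rw [PowerSeries.ext_iff]
  refine forall_congr' fun d => ?_
  rw [coeff_XD, map_neg, coeff_SS_mul]

theorem SS_add (c e : ℕ → K) : SS (c + e) = SS c + SS e := by
  ext n
  simp only [SS, coeff_mk, map_add, Pi.add_apply]
  split_ifs <;> simp

theorem SS_neg (c : ℕ → K) : SS (-c) = - SS c := by
  ext n
  simp only [SS, coeff_mk, map_neg, Pi.neg_apply]
  split_ifs <;> simp

theorem LD.mul {F G : PowerSeries K} {c e : ℕ → K} (hF : LD F c) (hG : LD G e) :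
    LD (F * G) (c + e) := by
  rw [ld_iff] at *
  rw [XD_mul, hF, hG, SS_add]
  ring

theorem ld_one : LD (1 : PowerSeries K) 0 := by
  rw [ld_iff]
  have h1 : SS (0 : ℕ → K) = 0 := by ext n; simp [SS]
  rw [h1, zero_mul, neg_zero, XD]
  simp

theorem ld_linear (a : K) : LD (1 - C a * X : PowerSeries K) (fun s => a ^ s) := by
  intro d
  have hc : ∀ n : ℕ, coeff n (1 - C a * X : PowerSeries K) =
      if n = 0 then 1 else if n = 1 then -a else 0 := by
    intro n
    rw [map_sub, coeff_one, ← smul_eq_C_mul, coeff_smul, coeff_X]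
    rcases n with _ | _ | n
    · simp
    · simp
    · simp
  rcases d with _ | d
  · simp
  · rw [hc (d + 1), if_neg (Nat.succ_ne_zero d), Finset.sum_range_succ]
    simp only [Nat.sub_self]
    rw [hc 0, if_pos rfl, mul_one]
    rcases d with _ | d
    · simp
    · rw [if_neg (by omega), mul_zero, Finset.sum_range_succ]
      have h1 : d + 1 + 1 - (d + 1) = 1 := by omega
      rw [h1, hc 1, if_neg one_ne_zero, if_pos rfl]
      have h2 : ∑ s ∈ range d, a ^ (s + 1) * coeff (d + 1 + 1 - (s + 1)) (1 - C a * X :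
          PowerSeries K) = 0 := by
        refine Finset.sum_eq_zero fun s hs => ?_
        rw [Finset.mem_range] at hs
        rw [hc, if_neg (by omega), if_neg (by omega), mul_zero]
      rw [h2]
      ring

theorem ld_prod {ι : Type*} (s : Finset ι) (a : ι → K) :
    LD (∏ i ∈ s, (1 - C (a i) * X) : PowerSeries K) (fun n => ∑ i ∈ s, a i ^ n) := by
  classical
  induction s using Finset.induction_on with
  | empty =>
    simp only [Finset.prod_empty, Finset.sum_empty]
    exact ld_one
  | insert i s hi ih =>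
    rw [Finset.prod_insert hi]
    have h := (ld_linear (a i)).mul ih
    have e : (fun n => ∑ j ∈ insert i s, a j ^ n) =
        (fun n => a i ^ n) + fun n => ∑ j ∈ s, a j ^ n := by
      funext n
      rw [Finset.sum_insert hi]
      rfl
    rw [e]
    exact h

theorem LD.unique {F G : PowerSeries K} {c : ℕ → K} (hF : LD F c) (hG : LD G c)
    (h0 : coeff 0 F = coeff 0 G) : F = G := by
  ext d
  induction d using Nat.strong_induction_on with
  | _ d ih =>
    rcases d with _ | d
    · exact h0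
    · have h1 := hF (d + 1)
      have h2 := hG (d + 1)
      have h3 : ∑ s ∈ range (d + 1), c (s + 1) * coeff (d + 1 - (s + 1)) F =
          ∑ s ∈ range (d + 1), c (s + 1) * coeff (d + 1 - (s + 1)) G := by
        refine Finset.sum_congr rfl fun s hs => ?_
        rw [ih _ (by omega)]
      rw [h3, ← h2] at h1
      have h4 : ((d + 1 : ℕ) : K) ≠ 0 := Nat.cast_ne_zero.mpr (Nat.succ_ne_zero d)
      exact mul_left_cancel₀ h4 h1

/-- the logarithmic derivative is determined -/
theorem LD.coeff_unique {F : PowerSeries K} {c e : ℕ → K} (hc : LD F c) (he : LD F e)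
    (h0 : coeff 0 F = 1) : ∀ n, n ≠ 0 → c n = e n := by
  intro n
  induction n using Nat.strong_induction_on with
  | _ n ih =>
    intro hn
    obtain ⟨d, rfl⟩ := Nat.exists_eq_succ_of_ne_zero hn
    have h1 := hc (d + 1)
    have h2 := he (d + 1)
    rw [h1, Finset.sum_range_succ, Finset.sum_range_succ] at h2
    simp only [Nat.sub_self] at h2
    rw [h0, mul_one, mul_one] at h2
    have h3 : ∑ s ∈ range d, c (s + 1) * coeff (d + 1 - (s + 1)) F =
        ∑ s ∈ range d, e (s + 1) * coeff (d + 1 - (s + 1)) F := by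
      refine Finset.sum_congr rfl fun s hs => ?_
      rw [Finset.mem_range] at hs
      rw [ih (s + 1) (by omega) (Nat.succ_ne_zero s)]
    rw [h3] at h2
    have h4 := neg_injective h2
    exact add_left_cancel h4

/-- the point counts -/
structure Counts (q g : ℕ) (A : ℕ → ℕ → ℕ) (N h : ℕ → ℕ) : Prop where
  hq : 2 ≤ q
  A0 : ∀ m, 0 < m → A m 0 = 1
  recur : ∀ m, 0 < m → ∀ d, d * A m d = ∑ s ∈ range d, N (m * (s + 1)) * A m (d - (s + 1))
  large : ∀ m, 0 < m → ∀ d, 2 * g ≤ d + 1 →
    (A m d : ℤ) * ((q : ℤ) ^ m - 1) = (h m : ℤ) * ((q : ℤ) ^ (m * (d + 1 - g)) - 1)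

section Main

variable {q g : ℕ} {A : ℕ → ℕ → ℕ} {N h : ℕ → ℕ} (H : Counts q g A N h)

/-- the zeta function -/
def Zs (R : Type*) [CommRing R] (A : ℕ → ℕ → ℕ) (m : ℕ) : PowerSeries R := mk fun d => (A m d : R)

/-- the numerator of the zeta function times `(1 - X)⁻¹` -/
def Ws (R : Type*) [CommRing R] (q : ℕ) (A : ℕ → ℕ → ℕ) (m : ℕ) : PowerSeries R :=
  (1 - C ((q : R) ^ m) * X) * Zs R A m

/-- the numerator of the zeta function -/
def Ps (R : Type*) [CommRing R] (q : ℕ) (A : ℕ → ℕ → ℕ) (m : ℕ) : PowerSeries R :=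
  (1 - C (1 : R) * X) * Ws R q A m

theorem coeff_linear_mul {R : Type*} [CommRing R] (a : R) (F : PowerSeries R) (d : ℕ) :
    coeff (d + 1) ((1 - C a * X) * F) = coeff (d + 1) F - a * coeff d F := by
  rw [sub_mul, one_mul, map_sub, mul_assoc, coeff_C_mul, coeff_succ_X_mul]

theorem coeff_linear_mul_zero {R : Type*} [CommRing R] (a : R) (F : PowerSeries R) :
    coeff 0 ((1 - C a * X) * F) = coeff 0 F := by
  rw [sub_mul, one_mul, map_sub, mul_assoc, coeff_C_mul, coeff_zero_X_mul, mul_zero, sub_zero]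

theorem sum_coeff_linear_mul {R : Type*} [CommRing R] (F : PowerSeries R) (d : ℕ) :
    ∑ i ∈ range (d + 1), coeff i ((1 - C (1 : R) * X) * F) = coeff d F := by
  induction d with
  | zero => rw [zero_add, Finset.sum_range_one, coeff_linear_mul_zero]
  | succ d ih => rw [Finset.sum_range_succ, ih, coeff_linear_mul]; ring

include H

theorem qm_ne {m : ℕ} (hm : 0 < m) : ((q : ℤ) ^ m - 1) ≠ 0 := by
  have h1 : (2 : ℤ) ≤ q := by exact_mod_cast H.hq
  have h2 : (2 : ℤ) ^ m ≤ (q : ℤ) ^ m := pow_le_pow_left₀ (by norm_num) h1 m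
  have h3 : (2 : ℤ) ≤ 2 ^ m := by
    calc (2 : ℤ) = 2 ^ 1 := (pow_one 2).symm
      _ ≤ 2 ^ m := pow_le_pow_right₀ (by norm_num) hm
  omega

/-- the class number from the coefficients -/
theorem coeff_Ws {m : ℕ} (hm : 0 < m) {D : ℕ} (hD : 2 * g ≤ D + 1) :
    coeff (D + 1) (Ws ℤ q A m) = h m := by
  have h1 := H.large m hm (D + 1) (by omega)
  have h2 := H.large m hm D hD
  rw [Ws, coeff_linear_mul, Zs, coeff_mk, coeff_mk]
  apply mul_right_cancel₀ (qm_ne H hm)
  have h3 : m * (D + 1 + 1 - g) = m + m * (D + 1 - g) := by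
    have : D + 1 + 1 - g = 1 + (D + 1 - g) := by omega
    rw [this, mul_add, mul_one]
  rw [sub_mul, h1, mul_assoc, h2, h3, pow_add]
  ring

theorem coeff_Ps {m : ℕ} (hm : 0 < m) {d : ℕ} (hd : 2 * g + 1 ≤ d) :
    coeff d (Ps ℤ q A m) = 0 := by
  obtain ⟨d, rfl⟩ : ∃ e, d = e + 1 := ⟨d - 1, by omega⟩
  rw [Ps, coeff_linear_mul, one_mul, coeff_Ws H hm (by omega)]
  rcases d with _ | d
  · -- genus zero
    have h2 := H.large m hm 0 (by omega)
    have hg : g = 0 := by omega
    subst hg
    rw [Ws, coeff_linear_mul_zero, Zs, coeff_mk, sub_eq_zero]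
    apply mul_right_cancel₀ (qm_ne H hm)
    rw [h2]
    simp
  · rw [coeff_Ws H hm (by omega), sub_self]

end Main

end Fermat.Agent.CZeta
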