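import Fermat.Agent.CZeta.Roots
import Mathlib.NumberTheory.Padics.Complex
import Mathlib.Analysis.Normed.Group.Ultra

/-!
# The `ℓ`-adic growth of class numbers
-/

set_option autoImplicit false
set_option linter.unusedSectionVars false

noncomputable section

open Finset

namespace Fermat.Agent.CZeta

variable {l : ℕ} [hl : Fact l.Prime]

local notation "Ω" => PadicAlgCl l

theorem norm_l : ‖(l : Ω)‖ = (l : ℝ)⁻¹ := by
  have h := PadicAlgCl.norm_extends l ((l : ℕ) : ℚ_[l])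
  rw [Padic.norm_p] at h
  rw [← h]
  congr 1

theorem norm_l_pos : 0 < ‖(l : Ω)‖ := by
  rw [norm_l]
  have := hl.out.pos
  positivity

theorem norm_l_lt : ‖(l : Ω)‖ < 1 := by
  rw [norm_l]
  exact inv_lt_one_of_one_lt₀ (by exact_mod_cast hl.out.one_lt)

theorem norm_nat_le (n : ℕ) : ‖(n : Ω)‖ ≤ 1 := by
  have h := PadicAlgCl.norm_extends l ((n : ℕ) : ℚ_[l])
  have h1 : ‖((n : ℕ) : ℚ_[l])‖ ≤ 1 := by
    exact_mod_cast Padic.norm_int_le_one (n : ℤ)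
  rw [← h] at h1
  refine le_trans (le_of_eq ?_) h1
  congr 1

theorem norm_geom_le {y : Ω} (hy : ‖y‖ ≤ 1) (n : ℕ) : ‖∑ i ∈ range n, y ^ i‖ ≤ 1 := by
  refine IsUltrametricDist.norm_sum_le_of_forall_le_of_nonneg zero_le_one fun i _ => ?_
  rw [norm_pow]
  exact pow_le_one₀ (norm_nonneg _) hy

theorem norm_pow_sub_one_le {y : Ω} (hy : ‖y‖ ≤ 1) (n : ℕ) : ‖y ^ n - 1‖ ≤ ‖y - 1‖ := by
  rw [← geom_sum_mul, norm_mul]
  exact mul_le_of_le_one_left (norm_nonneg _) (norm_geom_le hy n)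

theorem norm_pow_prime {y : Ω} (hy : ‖y‖ ≤ 1) (h : ‖y - 1‖ < ‖(l : Ω)‖) :
    ‖y ^ l - 1‖ = ‖(l : Ω)‖ * ‖y - 1‖ := by
  rw [← geom_sum_mul, norm_mul]
  congr 1
  have h1 : ∑ i ∈ range l, y ^ i = (l : Ω) + ∑ i ∈ range l, (y ^ i - 1) := by
    rw [Finset.sum_sub_distrib]
    simp
  have h2 : ‖∑ i ∈ range l, (y ^ i - 1)‖ < ‖(l : Ω)‖ := by
    refine lt_of_le_of_lt ?_ h
    exact IsUltrametricDist.norm_sum_le_of_forall_le_of_nonneg (norm_nonneg _)
      fun i _ => norm_pow_sub_one_le hy i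
  rw [h1, IsUltrametricDist.norm_add_eq_max_of_norm_ne_norm h2.ne', max_eq_left h2.le]

/-- growth of `1 - x ^ (m ℓ ^ j)` -/
theorem exists_growth {x : Ω} (hx : ‖x‖ ≤ 1) {m : ℕ} (h0 : ∀ j, 1 - x ^ (m * l ^ j) ≠ 0) :
    ∃ c : ℝ, 0 < c ∧ ∀ j, c * ‖(l : Ω)‖ ^ j ≤ ‖1 - x ^ (m * l ^ j)‖ := by
  classical
  have hρ0 := norm_l_pos (l := l)
  have hρ1 := norm_l_lt (l := l)
  by_cases hex : ∃ j, ‖1 - x ^ (m * l ^ j)‖ < ‖(l : Ω)‖
  · let j₀ := Nat.find hex
    have hj₀ : ‖1 - x ^ (m * l ^ j₀)‖ < ‖(l : Ω)‖ := Nat.find_spec hex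
    have hmin : ∀ j < j₀, ‖(l : Ω)‖ ≤ ‖1 - x ^ (m * l ^ j)‖ := fun j hj =>
      not_lt.mp (Nat.find_min hex hj)
    have hstep : ∀ k, ‖1 - x ^ (m * l ^ (j₀ + k))‖ = ‖(l : Ω)‖ ^ k * ‖1 - x ^ (m * l ^ j₀)‖ := by
      intro k
      induction k with
      | zero => simp
      | succ k ih =>
        have h1 : ‖x ^ (m * l ^ (j₀ + k)) - 1‖ < ‖(l : Ω)‖ := by
          rw [norm_sub_rev, ih]
          refine lt_of_le_of_lt ?_ hj₀
          exact mul_le_of_le_one_left (norm_nonneg _) (pow_le_one₀ hρ0.le hρ1.le)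
        have h2 : ‖x ^ (m * l ^ (j₀ + k))‖ ≤ 1 := by
          rw [norm_pow]; exact pow_le_one₀ (norm_nonneg _) hx
        have h3 := norm_pow_prime h2 h1
        have h4 : m * l ^ (j₀ + (k + 1)) = m * l ^ (j₀ + k) * l := by ring
        rw [h4, pow_mul, norm_sub_rev, h3, norm_sub_rev, ih, pow_succ]
        ring
    refine ⟨min ‖(l : Ω)‖ ‖1 - x ^ (m * l ^ j₀)‖, lt_min hρ0 (norm_pos_iff.mpr (h0 j₀)),
      fun j => ?_⟩
    rcases lt_or_ge j j₀ with hj | hj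
    · refine le_trans ?_ (hmin j hj)
      refine le_trans (mul_le_mul_of_nonneg_right (min_le_left _ _) (pow_nonneg hρ0.le j)) ?_
      exact mul_le_of_le_one_right hρ0.le (pow_le_one₀ hρ0.le hρ1.le)
    · obtain ⟨k, rfl⟩ := Nat.exists_eq_add_of_le hj
      rw [hstep k, mul_comm]
      refine mul_le_mul ?_ (min_le_right _ _) (by positivity) (by positivity)
      exact pow_le_pow_of_le_one hρ0.le hρ1.le (by omega)
  · push Not at hex
    refine ⟨‖(l : Ω)‖, hρ0, fun j => le_trans ?_ (hex j)⟩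
    exact mul_le_of_le_one_right hρ0.le (pow_le_one₀ hρ0.le hρ1.le)

/-- integral elements have norm at most one -/
theorem norm_le_one_of_isIntegral {x : Ω} (hx : IsIntegral ℤ x) : ‖x‖ ≤ 1 := by
  obtain ⟨P, hP, hPx⟩ := hx
  by_contra hcon
  push Not at hcon
  have hx0 : 0 < ‖x‖ := lt_trans one_pos hcon
  rw [Polynomial.eval₂_eq_sum_range, Finset.sum_range_succ, hP.coeff_natDegree, map_one,
    one_mul] at hPx
  have h1 : x ^ P.natDegree = -∑ i ∈ range P.natDegree, (algebraMap ℤ Ω) (P.coeff i) * x ^ i := by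
    exact (neg_eq_of_add_eq_zero_right hPx).symm
  have hd : P.natDegree ≠ 0 := by
    intro h
    rw [h] at h1
    simp at h1
  obtain ⟨d, hd'⟩ := Nat.exists_eq_succ_of_ne_zero hd
  have h2 : ‖x ^ P.natDegree‖ ≤ ‖x‖ ^ d := by
    rw [h1, norm_neg]
    refine IsUltrametricDist.norm_sum_le_of_forall_le_of_nonneg (by positivity) fun i hi => ?_
    rw [Finset.mem_range] at hi
    rw [norm_mul, norm_pow]
    have h3 : ‖(algebraMap ℤ Ω) (P.coeff i)‖ ≤ 1 := by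
      rcases Int.natAbs_eq (P.coeff i) with h | h <;> rw [h]
      · simpa using norm_nat_le (l := l) (P.coeff i).natAbs
      · simpa using norm_nat_le (l := l) (P.coeff i).natAbs
    calc ‖(algebraMap ℤ Ω) (P.coeff i)‖ * ‖x‖ ^ i ≤ 1 * ‖x‖ ^ i :=
          mul_le_mul_of_nonneg_right h3 (by positivity)
      _ = ‖x‖ ^ i := one_mul _
      _ ≤ ‖x‖ ^ d := pow_le_pow_right₀ hcon.le (by omega)
  rw [norm_pow, hd', pow_succ] at h2
  have h3 : 0 < ‖x‖ ^ d := by positivity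
  nlinarith

variable {q g : ℕ} {A : ℕ → ℕ → ℕ} {N h : ℕ → ℕ} (H : Counts q g A N h)

include H in
/-- **the bound for the rank** -/
theorem rank_le (hh : ∀ m, 0 < m → h m ≠ 0) {m t : ℕ} (hm : 0 < m)
    (hdvd : ∀ j, l ^ (t * (j + 1)) ∣ h (m * l ^ j)) : t ≤ 2 * g := by
  by_contra hcon
  push Not at hcon
  obtain ⟨α, hα, hprod⟩ := exists_roots (K := Ω) H
  have hρ0 := norm_l_pos (l := l)
  have hρ1 := norm_l_lt (l := l)
  have hpos : ∀ j, 0 < m * l ^ j := fun j => Nat.mul_pos hm (pow_pos hl.out.pos j)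
  have hne : ∀ i j, 1 - α i ^ (m * l ^ j) ≠ 0 := by
    intro i j h0
    have h1 := hprod _ (hpos j)
    rw [Finset.prod_eq_zero (Finset.mem_univ i) h0] at h1
    exact hh _ (hpos j) (by exact_mod_cast h1)
  choose c hc0 hc using fun i => exists_growth (norm_le_one_of_isIntegral (hα i)) (hne i)
  have hC0 : 0 < ∏ i, c i := Finset.prod_pos fun i _ => hc0 i
  have hlow : ∀ j, (∏ i, c i) * ‖(l : Ω)‖ ^ (2 * g * j) ≤ ‖((h (m * l ^ j) : ℕ) : Ω)‖ := by
    intro j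
    rw [hprod _ (hpos j), norm_prod]
    have e : (∏ i, c i) * ‖(l : Ω)‖ ^ (2 * g * j) = ∏ i, (c i * ‖(l : Ω)‖ ^ j) := by
      rw [Finset.prod_mul_distrib, Finset.prod_const, Finset.card_univ, Fintype.card_fin,
        ← pow_mul]
      ring
    rw [e]
    exact Finset.prod_le_prod (fun i _ => mul_nonneg (hc0 i).le (by positivity)) fun i _ => hc i j
  have hup : ∀ j, ‖((h (m * l ^ j) : ℕ) : Ω)‖ ≤ ‖(l : Ω)‖ ^ (t * (j + 1)) := by
    intro j
    obtain ⟨b, hb⟩ := hdvd j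
    rw [hb, Nat.cast_mul, norm_mul, Nat.cast_pow, norm_pow]
    exact mul_le_of_le_one_right (by positivity) (norm_nat_le b)
  have hfin : ∀ j, ∏ i, c i ≤ ‖(l : Ω)‖ ^ j := by
    intro j
    have h1 := (hlow j).trans (hup j)
    have h2 : ‖(l : Ω)‖ ^ (t * (j + 1)) ≤ ‖(l : Ω)‖ ^ (j + 2 * g * j) := by
      refine pow_le_pow_of_le_one hρ0.le hρ1.le ?_
      nlinarith
    have h3 := h1.trans h2
    rw [pow_add] at h3
    exact le_of_mul_le_mul_right h3 (by positivity)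
  obtain ⟨j, hj⟩ := exists_pow_lt_of_lt_one hC0 hρ1
  exact absurd (hfin j) (not_le.mpr hj)

end Fermat.Agent.CZeta
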