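import Fermat.Agent.CZeta.Algebra
import Mathlib.FieldTheory.IsAlgClosed.Basic

/-!
# Class numbers as products over the inverse roots of the zeta function
-/

set_option autoImplicit false
set_option linter.unusedSectionVars false

noncomputable section

open PowerSeries Finset

namespace Fermat.Agent.CZeta

variable {q g : ℕ} {A : ℕ → ℕ → ℕ} {N h : ℕ → ℕ} (H : Counts q g A N h)

section Map

variable (K : Type*) [Field K] (q A)

theorem map_Zs (m : ℕ) : PowerSeries.map (Int.castRingHom K) (Zs ℤ A m) = Zs K A m := by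
  ext d
  simp [Zs]

theorem map_Ws (m : ℕ) : PowerSeries.map (Int.castRingHom K) (Ws ℤ q A m) = Ws K q A m := by
  rw [Ws, Ws, map_mul, map_Zs, map_sub, map_mul, map_one, map_C, map_X]
  simp

theorem map_Ps (m : ℕ) : PowerSeries.map (Int.castRingHom K) (Ps ℤ q A m) = Ps K q A m := by
  rw [Ps, Ps, map_mul, map_Ws, map_sub, map_mul, map_one, map_C, map_X]
  simp

end Map

section Reflect

open Polynomial

variable {K : Type*} [Field K]

theorem reflect_prod (s : Multiset K) :
    Polynomial.reflect s.card (s.map fun a => Polynomial.X - Polynomial.C a).prod =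
      (s.map fun a => (1 : K[X]) - Polynomial.C a * Polynomial.X).prod := by
  induction s using Multiset.induction_on with
  | empty =>
    rw [Multiset.map_zero, Multiset.map_zero, Multiset.prod_zero, Multiset.card_zero]
    rw [← Polynomial.C_1, Polynomial.reflect_C]
    simp
  | cons a s ih =>
    rw [Multiset.map_cons, Multiset.map_cons, Multiset.prod_cons, Multiset.prod_cons,
      Multiset.card_cons, add_comm s.card 1, Polynomial.reflect_mul _ _ (by
        rw [Polynomial.natDegree_X_sub_C]) (Polynomial.natDegree_multiset_prod_X_sub_C_eq_card s).le,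
      ih]
    congr 1
    rw [Polynomial.reflect_sub, Polynomial.reflect_C, pow_one, Polynomial.reflect_one_X]

theorem coe_prod_linear {ι : Type*} [Fintype ι] (a : ι → K) :
    ((∏ i, (1 - Polynomial.C (a i) * Polynomial.X) : K[X]) : PowerSeries K) =
      ∏ i, (1 - PowerSeries.C (a i) * PowerSeries.X : PowerSeries K) := by
  rw [← Polynomial.coeToPowerSeries.ringHom_apply, map_prod]
  refine Finset.prod_congr rfl fun i _ => ?_
  rw [Polynomial.coeToPowerSeries.ringHom_apply]
  simp

end Reflect

section Main

variable {K : Type*} [Field K] [CharZero K]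

theorem coeff_zero_Ps {m : ℕ} (hA : A m 0 = 1) : coeff 0 (Ps K q A m) = 1 := by
  rw [Ps, coeff_linear_mul_zero, Ws, coeff_linear_mul_zero, Zs, coeff_mk, hA, Nat.cast_one]

include H

theorem ld_Zs {m : ℕ} (hm : 0 < m) : LD (Zs K A m) (fun s => -(N (m * s) : K)) := by
  intro d
  have h1 := congrArg (fun z : ℕ => (z : K)) (H.recur m hm d)
  simp only [Nat.cast_mul, Nat.cast_sum] at h1
  rw [Zs, coeff_mk, h1, ← Finset.sum_neg_distrib]
  refine Finset.sum_congr rfl fun s _ => ?_
  rw [coeff_mk, neg_mul, neg_neg]

theorem ld_Ps {m : ℕ} (hm : 0 < m) :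
    LD (Ps K q A m) (fun s => 1 + (q : K) ^ (m * s) - N (m * s)) := by
  have h1 := (ld_linear (1 : K)).mul ((ld_linear ((q : K) ^ m)).mul (ld_Zs H hm))
  have e : (fun s => 1 + (q : K) ^ (m * s) - (N (m * s) : K)) =
      (fun s => (1 : K) ^ s) + ((fun s => ((q : K) ^ m) ^ s) + fun s => -(N (m * s) : K)) := by
    funext s
    simp only [Pi.add_apply, one_pow, ← pow_mul]
    ring
  rw [e]
  exact h1

variable (K) in
/-- **Class numbers as products.** -/
theorem exists_roots [IsAlgClosed K] : ∃ α : Fin (2 * g) → K, (∀ i, IsIntegral ℤ (α i)) ∧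
    ∀ m, 0 < m → (h m : K) = ∏ i, (1 - α i ^ m) := by
  classical
  -- the numerator as a polynomial
  let pZ : Polynomial ℤ := PowerSeries.trunc (2 * g + 1) (Ps ℤ q A 1)
  have hpZ : (pZ : PowerSeries ℤ) = Ps ℤ q A 1 := by
    ext d
    rw [Polynomial.coeff_coe, PowerSeries.coeff_trunc]
    split_ifs with hd
    · rfl
    · exact (coeff_Ps H one_pos (by omega)).symm
  have hdeg : pZ.natDegree ≤ 2 * g := by
    have h1 := PowerSeries.natDegree_trunc_lt (Ps ℤ q A 1) (2 * g)
    exact Nat.lt_succ_iff.mp h1
  have hp0 : pZ.coeff 0 = 1 := by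
    have h1 : coeff 0 (Ps ℤ q A 1) = 1 := by
      rw [Ps, coeff_linear_mul_zero, Ws, coeff_linear_mul_zero, Zs, coeff_mk, H.A0 1 one_pos,
        Nat.cast_one]
    rw [← h1, ← hpZ, Polynomial.coeff_coe]
  let RZ : Polynomial ℤ := pZ.reflect (2 * g)
  have hRdeg : RZ.natDegree = 2 * g := by
    refine Polynomial.natDegree_eq_of_le_of_coeff_ne_zero ?_ ?_
    · have := Polynomial.natDegree_reflect_le (p := pZ) (N := 2 * g)
      exact this.trans (by rw [max_eq_left hdeg])
    · rw [Polynomial.coeff_reflect, Polynomial.revAt_le le_rfl, Nat.sub_self, hp0]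
      exact one_ne_zero
  have hRm : RZ.Monic := by
    rw [Polynomial.Monic, Polynomial.leadingCoeff, hRdeg, Polynomial.coeff_reflect,
      Polynomial.revAt_le le_rfl, Nat.sub_self, hp0]
  let R : Polynomial K := RZ.map (Int.castRingHom K)
  have hRm' : R.Monic := hRm.map _
  have hRd' : R.natDegree = 2 * g := by rw [hRm.natDegree_map, hRdeg]
  have hsp : R.Splits := IsAlgClosed.splits R
  have hcard : R.roots.card = 2 * g := by
    rw [← hRd']
    exact hsp.natDegree_eq_card_roots.symm
  have hprod : R = (R.roots.map fun a => Polynomial.X - Polynomial.C a).prod :=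
    hsp.eq_prod_roots_of_monic hRm'
  obtain ⟨l, hl⟩ := Quot.exists_rep R.roots
  have hl' : (l : Multiset K) = R.roots := hl
  have hlen : l.length = 2 * g := by rw [← Multiset.coe_card, hl', hcard]
  let α : Fin (2 * g) → K := fun i => l.get (Fin.cast hlen.symm i)
  have hα : Multiset.map α Finset.univ.val = R.roots := by
    rw [Fin.univ_val_map, ← hl']
    congr 1
    refine List.ext_getElem (by simp [hlen]) fun i h1 h2 => ?_
    simp [α]
  have hmap : pZ.map (Int.castRingHom K) = ∏ i, (1 - Polynomial.C (α i) * Polynomial.X) := by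
    have h1 : pZ.map (Int.castRingHom K) = R.reflect (2 * g) := by
      have h2 : R = (pZ.map (Int.castRingHom K)).reflect (2 * g) := by
        exact (Polynomial.reflect_map (Int.castRingHom K) pZ (2 * g)).symm
      rw [h2, Polynomial.reflect_reflect]
    have h3 := reflect_prod R.roots
    rw [hcard, ← hprod, ← hα, Multiset.map_map] at h3
    rw [h1, h3]
    rfl
  have hP1 : Ps K q A 1 = ∏ i, (1 - C (α i) * X : PowerSeries K) := by
    rw [← map_Ps, ← hpZ, ← Polynomial.polynomial_map_coe, hmap, coe_prod_linear]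
  refine ⟨α, fun i => ?_, fun m hm => ?_⟩
  · have h1 : α i ∈ R.roots := by
      rw [← hα, Multiset.mem_map]
      exact ⟨i, Finset.mem_univ i, rfl⟩
    have h2 := (Polynomial.mem_roots hRm'.ne_zero).mp h1
    refine ⟨RZ, hRm, ?_⟩
    rw [Polynomial.IsRoot.def, Polynomial.eval_map] at h2
    exact h2
  · -- comparison of logarithmic derivatives
    have hL1 := ld_Ps (K := K) H one_pos
    have hL2 : LD (Ps K q A 1) (fun n => ∑ i, α i ^ n) := by
      rw [hP1]
      exact ld_prod _ _
    have hc := hL1.coeff_unique hL2 (coeff_zero_Ps (H.A0 1 one_pos))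
    have hLm := ld_Ps (K := K) H hm
    have hLm' : LD (∏ i, (1 - C (α i ^ m) * X) : PowerSeries K)
        (fun s => 1 + (q : K) ^ (m * s) - N (m * s)) := by
      have h3 := ld_prod Finset.univ (fun i => α i ^ m)
      intro d
      rw [h3 d]
      congr 1
      refine Finset.sum_congr rfl fun s _ => ?_
      congr 1
      have h4 := hc (m * (s + 1)) (by positivity)
      simp only [one_mul] at h4
      show ∑ i, (α i ^ m) ^ (s + 1) = 1 + (q : K) ^ (m * (s + 1)) - N (m * (s + 1))
      rw [h4]
      refine Finset.sum_congr rfl fun i _ => ?_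
      rw [← pow_mul]
    have hPm : Ps K q A m = ∏ i, (1 - C (α i ^ m) * X : PowerSeries K) := by
      refine hLm.unique hLm' ?_
      rw [coeff_zero_Ps (H.A0 m hm), coeff_zero_eq_constantCoeff, map_prod]
      simp
    -- evaluation at one
    have h5 := sum_coeff_linear_mul (Ws K q A m) (2 * g + 1)
    have h6 : coeff (2 * g + 1) (Ws K q A m) = h m := by
      rw [← map_Ws, PowerSeries.coeff_map, coeff_Ws H hm (by omega)]
      simp
    rw [← h6, ← h5]
    have h7 : (1 - C (1 : K) * X) * Ws K q A m = Ps K q A m := rfl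
    rw [h7, hPm]
    let Q : Polynomial K := ∏ i, (1 - Polynomial.C (α i ^ m) * Polynomial.X)
    have hQ : (Q : PowerSeries K) = ∏ i, (1 - C (α i ^ m) * X : PowerSeries K) := by
      exact coe_prod_linear _
    have hQd : Q.natDegree < 2 * g + 1 + 1 := by
      have h8 : Q.natDegree ≤ ∑ i : Fin (2 * g), 1 := by
        refine (Polynomial.natDegree_prod_le _ _).trans (Finset.sum_le_sum fun i _ => ?_)
        refine (Polynomial.natDegree_sub_le _ _).trans ?_
        rw [Polynomial.natDegree_one]
        refine max_le (Nat.zero_le _) ?_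
        exact (Polynomial.natDegree_C_mul_le _ _).trans Polynomial.natDegree_X_le
      simp at h8
      omega
    rw [← hQ]
    have h9 : ∏ i, (1 - α i ^ m) = Q.eval 1 := by
      rw [Polynomial.eval_prod]
      refine Finset.prod_congr rfl fun i _ => ?_
      simp
    rw [h9, Polynomial.eval_eq_sum_range' hQd]
    refine Finset.sum_congr rfl fun i _ => ?_
    rw [Polynomial.coeff_coe, one_pow, mul_one]

end Main

end Fermat.Agent.CZeta
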