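import Fermat.Agent.CZeta.Bound
import Mathlib.GroupTheory.Index
import Mathlib.GroupTheory.QuotientGroup.Basic
import Mathlib.GroupTheory.PGroup
import Mathlib.RingTheory.AdjoinRoot

/-!
# The rank of the `ℓ`-torsion
-/

set_option autoImplicit false
set_option linter.unusedSectionVars false

noncomputable section

open Finset

namespace Fermat.Agent.CZeta

variable {V : Type*} [AddCommGroup V] {l : ℕ} [hl : Fact l.Prime]

/-- the `n`-torsion -/
def tors (V : Type*) [AddCommGroup V] (n : ℕ) : AddSubgroup V := (nsmulAddMonoidHom n : V →+ V).ker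

theorem mem_tors {n : ℕ} {v : V} : v ∈ tors V n ↔ n • v = 0 := Iff.rfl

theorem card_tors_succ (hdiv : ∀ v : V, ∃ w, l • w = v) (k : ℕ) :
    Nat.card (tors V (l ^ (k + 1))) = Nat.card (tors V l) * Nat.card (tors V (l ^ k)) := by
  let f : tors V (l ^ (k + 1)) →+ tors V (l ^ k) :=
    AddMonoidHom.mk' (fun v => ⟨l • (v : V), by
      rw [mem_tors, smul_smul, ← pow_succ]
      exact v.2⟩) (by
      intro a b
      apply Subtype.ext
      show l • ((a : V) + b) = l • (a : V) + l • (b : V)
      rw [smul_add])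
  have hf : Function.Surjective f := by
    rintro ⟨v, hv⟩
    obtain ⟨w, hw⟩ := hdiv v
    refine ⟨⟨w, ?_⟩, Subtype.ext hw⟩
    rw [mem_tors, pow_succ, mul_smul, hw]
    exact hv
  have h1 := AddSubgroup.card_eq_card_quotient_mul_card_addSubgroup f.ker
  have h2 : Nat.card (tors V (l ^ (k + 1)) ⧸ f.ker) = Nat.card (tors V (l ^ k)) :=
    Nat.card_congr (QuotientAddGroup.quotientKerEquivOfSurjective f hf).toEquiv
  have h3 : Nat.card f.ker = Nat.card (tors V l) := by
    refine Nat.card_congr ⟨fun v => ⟨v.1.1, ?_⟩, fun v => ⟨⟨v.1, ?_⟩, ?_⟩, fun v => rfl,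
      fun v => rfl⟩
    · exact congrArg Subtype.val v.2
    · rw [mem_tors, pow_succ, mul_smul]
      have : l • (v : V) = 0 := v.2
      rw [this, smul_zero]
    · exact Subtype.ext v.2
  rw [h1, h2, h3, mul_comm]

theorem card_tors_pow (hdiv : ∀ v : V, ∃ w, l • w = v) (k : ℕ) :
    Nat.card (tors V (l ^ k)) = Nat.card (tors V l) ^ k := by
  induction k with
  | zero =>
    rw [pow_zero, pow_zero]
    have : Subsingleton (tors V 1) := ⟨fun a b => Subtype.ext (by
      have ha := a.2
      have hb := b.2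
      rw [mem_tors, one_smul] at ha hb
      rw [ha, hb])⟩
    exact Nat.card_unique
  | succ k ih => rw [card_tors_succ hdiv, ih, pow_succ, mul_comm]

section Action

variable {G : Type*} [Group G] [DistribMulAction G V] (φ : G)

/-- fixed points of a power -/
def fixed (V : Type*) [AddCommGroup V] {G : Type*} [Group G] [DistribMulAction G V] (φ : G)
    (m : ℕ) : AddSubgroup V where
  carrier := {v | φ ^ m • v = v}
  zero_mem' := smul_zero _
  add_mem' := fun {a b} ha hb => by
    show φ ^ m • (a + b) = a + b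
    rw [smul_add]
    exact congrArg₂ (· + ·) ha hb
  neg_mem' := fun {a} ha => by
    show φ ^ m • (-a) = -a
    rw [smul_neg]
    exact congrArg _ ha

theorem mem_fixed {m : ℕ} {v : V} : v ∈ fixed V φ m ↔ φ ^ m • v = v := Iff.rfl

theorem smul_pow_of_sub {ψ : G} {v z : V} (h : ψ • v - v = z) (hz : ψ • z = z) (n : ℕ) :
    ψ ^ n • v = v + n • z := by
  have h1 : ψ • v = v + z := by rw [← h]; abel
  induction n with
  | zero => simp
  | succ n ih =>
    have hzn : ψ • (n • z) = n • z := by
      rw [smul_comm, hz]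
    rw [pow_succ', mul_smul, ih, smul_add, h1, hzn, succ_nsmul]
    abel

theorem pow_fixed {ψ : G} {z : V} (hz : ψ • z = z) (n : ℕ) : ψ ^ n • z = z := by
  induction n with
  | zero => simp
  | succ n ih => rw [pow_succ, mul_smul, hz, ih]

/-- a power of `φ` trivial on the `ℓ`-torsion: powers trivial on the `ℓ ^ k`-torsion -/
theorem tors_le_fixed {m : ℕ} (hm : ∀ v ∈ tors V l, φ ^ m • v = v) (j : ℕ) :
    tors V (l ^ (j + 1)) ≤ fixed V φ (m * l ^ j) := by
  induction j with
  | zero =>
    intro v hv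
    rw [mem_fixed, pow_zero, mul_one]
    exact hm v (by simpa using hv)
  | succ j ih =>
    intro v hv
    rw [mem_tors, pow_succ, mul_smul] at hv
    have h1 : φ ^ (m * l ^ j) • (l • v) = l • v := ih hv
    set ψ := φ ^ (m * l ^ j) with hψ
    have h2 : l • (ψ • v - v) = 0 := by
      rw [smul_sub, smul_comm, h1, sub_self]
    have h3' : ∀ z : V, l • z = 0 → ψ • z = z := by
      intro z hz
      rw [hψ, pow_mul]
      exact pow_fixed (hm _ hz) _
    have h3 := h3' _ h2
    have h4 := smul_pow_of_sub (ψ := ψ) (v := v) rfl h3 l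
    rw [mem_fixed]
    have h5 : m * l ^ (j + 1) = m * l ^ j * l := by ring
    rw [h5, pow_mul, ← hψ, h4, h2, add_zero]

variable {q g : ℕ} {A : ℕ → ℕ → ℕ} {N h : ℕ → ℕ} (H : Counts q g A N h)

include H

/-- **The bound for the torsion.** -/
theorem card_tors_le (hfin : ∀ m, 0 < m → Finite (fixed V φ m))
    (hh : ∀ m, 0 < m → h m = Nat.card (fixed V φ m)) (hdiv : ∀ v : V, ∃ w, l • w = v)
    {m : ℕ} (hm0 : 0 < m) (hm : ∀ v ∈ tors V l, φ ^ m • v = v) :
    Finite (tors V l) ∧ ∃ t ≤ 2 * g, ∀ k, Nat.card (tors V (l ^ k)) = l ^ (t * k) := by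
  have hle0 := tors_le_fixed φ hm 0
  rw [pow_zero, mul_one, zero_add, pow_one] at hle0
  have hf0 := hfin m hm0
  have hft : Finite (tors V l) := Finite.of_injective _ (AddSubgroup.inclusion_injective hle0)
  have hexp : ∃ t, Nat.card (tors V l) = l ^ t := by
    have hp : IsPGroup l (Multiplicative (tors V l)) := by
      intro v
      refine ⟨1, ?_⟩
      rw [pow_one]
      have : l • (Multiplicative.toAdd v) = 0 := Subtype.ext (Multiplicative.toAdd v).2
      exact congrArg Multiplicative.ofAdd this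
    obtain ⟨t, ht⟩ := IsPGroup.iff_card.mp hp
    exact ⟨t, by rw [← ht]; rfl⟩
  obtain ⟨t, ht⟩ := hexp
  have hcard : ∀ k, Nat.card (tors V (l ^ k)) = l ^ (t * k) := fun k => by
    rw [card_tors_pow hdiv, ht, ← pow_mul]
  refine ⟨hft, t, ?_, hcard⟩
  refine rank_le (l := l) H (fun n hn => ?_) hm0 fun j => ?_
  · rw [hh n hn]
    have := hfin n hn
    exact Nat.card_pos.ne'
  · have hpos : 0 < m * l ^ j := Nat.mul_pos hm0 (pow_pos hl.out.pos j)
    rw [hh _ hpos, ← hcard]
    exact AddSubgroup.card_dvd_of_le (tors_le_fixed φ hm j)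

end Action

section Finite

open Polynomial

variable {G : Type*} [Group G] [DistribMulAction G V] (φ : G)

/-- the operator defined by `φ` -/
def EE (V : Type*) [AddCommGroup V] {G : Type*} [Group G] [DistribMulAction G V] (φ : G) :
    AddMonoid.End V := DistribSMul.toAddMonoidHom V φ

theorem EE_apply (v : V) : EE V φ v = φ • v := rfl

/-- an invertible operator on an `ℓ`-torsion group satisfying a monic polynomial has finite
order -/
theorem exists_pow_eq_one (Q : ℤ[X]) (hQ : Q.Monic)
    (hQφ : ∀ v : V, l • v = 0 →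
      (Polynomial.aeval (EE V φ) Q) v = 0) :
    ∃ m, 0 < m ∧ ∀ v ∈ tors V l, φ ^ m • v = v := by
  let Qb : (ZMod l)[X] := Q.map (Int.castRingHom (ZMod l))
  have hQb : Qb.Monic := hQ.map _
  have : Module.Finite (ZMod l) (AdjoinRoot Qb) := hQb.finite_adjoinRoot
  have hfin : Finite (AdjoinRoot Qb) := Module.finite_of_finite (ZMod l)
  obtain ⟨i, j, hij, he⟩ := Finite.exists_ne_map_eq_of_infinite
    (fun n : ℕ => AdjoinRoot.root Qb ^ n)
  wlog hlt : i < j generalizing i j with hw
  · exact hw j i hij.symm he.symm (lt_of_le_of_ne (not_lt.mp hlt) hij.symm)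
  -- `X ^ j - X ^ i = Q S + ℓ U`
  have h1 : Qb ∣ (X : (ZMod l)[X]) ^ j - X ^ i := by
    rw [← AdjoinRoot.mk_eq_zero, map_sub, map_pow, map_pow, AdjoinRoot.mk_X, sub_eq_zero]
    exact he.symm
  obtain ⟨S', hS'⟩ := h1
  obtain ⟨S, rfl⟩ := Polynomial.map_surjective (Int.castRingHom (ZMod l))
    (ZMod.intCast_surjective) S'
  have h2 : (X ^ j - X ^ i - Q * S : ℤ[X]).map (Int.castRingHom (ZMod l)) = 0 := by
    rw [Polynomial.map_sub, Polynomial.map_sub, Polynomial.map_mul, Polynomial.map_pow,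
      Polynomial.map_pow, Polynomial.map_X, hS', sub_self]
  have h3 : C (l : ℤ) ∣ (X ^ j - X ^ i - Q * S : ℤ[X]) := by
    rw [C_dvd_iff_dvd_coeff]
    intro n
    have h4 := congrArg (fun P => coeff P n) h2
    simp only [coeff_map, coeff_zero] at h4
    exact (ZMod.intCast_zmod_eq_zero_iff_dvd _ l).1 h4
  obtain ⟨U, hU⟩ := h3
  refine ⟨j - i, by omega, fun v hv => ?_⟩
  set Φ : AddMonoid.End V := EE V φ with hΦ
  have hpow : ∀ (n : ℕ) (w : V), (Φ ^ n : AddMonoid.End V) w = φ ^ n • w := by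
    intro n
    induction n with
    | zero => intro w; simp
    | succ n ih =>
      intro w
      rw [pow_succ, pow_succ, mul_smul]
      show (Φ ^ n : AddMonoid.End V) (Φ w) = _
      rw [ih]
      rfl
  have h5 : (X ^ j - X ^ i : ℤ[X]) = S * Q + U * C (l : ℤ) := by
    rw [mul_comm U, ← hU]; ring
  have h6 := congrArg (fun P : ℤ[X] => (aeval Φ P : AddMonoid.End V) v) h5
  simp only [map_sub, map_pow, aeval_X, map_add, map_mul, aeval_C] at h6
  have h7 : (aeval Φ S * aeval Φ Q : AddMonoid.End V) v = 0 := by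
    show (aeval Φ S : AddMonoid.End V) ((aeval Φ Q : AddMonoid.End V) v) = 0
    rw [hQφ v hv, map_zero]
  have h8 : (aeval Φ U * (algebraMap ℤ (AddMonoid.End V)) (l : ℤ) : AddMonoid.End V) v = 0 := by
    show (aeval Φ U : AddMonoid.End V) (((algebraMap ℤ (AddMonoid.End V)) (l : ℤ)) v) = 0
    have : ((algebraMap ℤ (AddMonoid.End V)) (l : ℤ)) v = l • v := by
      rw [eq_intCast, Int.cast_natCast]
      exact AddMonoid.End.natCast_apply l v
    rw [this, mem_tors.mp hv, map_zero]
  have h9 : (Φ ^ j - Φ ^ i : AddMonoid.End V) v = (Φ ^ j : AddMonoid.End V) v -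
    (Φ ^ i : AddMonoid.End V) v := rfl
  have h10 : (aeval Φ S * aeval Φ Q + aeval Φ U * (algebraMap ℤ (AddMonoid.End V)) (l : ℤ) :
      AddMonoid.End V) v = (aeval Φ S * aeval Φ Q : AddMonoid.End V) v +
      (aeval Φ U * (algebraMap ℤ (AddMonoid.End V)) (l : ℤ) : AddMonoid.End V) v := rfl
  rw [h9, h10, h7, h8, add_zero, hpow, hpow, sub_eq_zero] at h6
  have h11 : φ ^ j = φ ^ i * φ ^ (j - i) := by rw [← pow_add]; congr 1; omega
  rw [h11, mul_smul] at h6
  exact smul_left_cancel _ h6

end Finite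

end Fermat.Agent.CZeta
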